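/-
Programme T1B (row 38 via S44), E-side, brick E44-A SUB-INE1 (helper48).

Model curve `Wab a b : Y² = X³ + aX² + bX` (earlier team's `Fermat/Agent/S05`) over a valued field
`(K, v)` with `v 2 = 1`, `v a = 1`, `v b < 1`, `b ≠ 0` (multiplicative reduction); `σ : K →+* K`
inertia-like (`v (σ x) = v x`, `v x ≤ 1 → v (σ x - x) < 1`), `σ b = b`, `v b = v h₀ ^ p` with
`σ h₀ = h₀`.

`S05.mult_fixed_aux` shows `σ P = P` for `p`-torsion points `P` under the extra hypothesis that the
kernel of reduction `E₁` has no `p`-torsion (true only in residue characteristic `≠ p`).  Here is the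
same argument WITHOUT that hypothesis and with the weaker conclusion

  `σ P - P ∈ E₁`  for every `p`-torsion point `P`

("inertia acts trivially on `E[p] / (E[p] ∩ E₁)`"), valid also in residue characteristic `p`:
`sub_inE1` (abstract form, hypotheses on `E₁` and on the component map) and `sub_inE1'` (packaged
form, with the hypotheses of `S05.mult_fixed` minus `hpv`, `ht'`).
-/
import Fermat.Agent.S05.Mult
import Fermat.Agent.S05.KernelContract
import Fermat.Agent.S05.Components

set_option autoImplicit false

namespace Fermat.Agent.T1B.ESide48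

open WeierstrassCurve WeierstrassCurve.Affine Fermat.Agent.S05 Fermat.Agent.S05.Mult

variable {K : Type*} [Field K] [DecidableEq K] {Γ₀ : Type*} [LinearOrderedCommGroupWithZero Γ₀]
  (v : Valuation K Γ₀) {a b : K}

/-- Equal coordinates give a difference in `E₁` (namely `0`). -/
lemma inE1_sub_of_eq {x y x' y' : K} (h : (Wab a b).toAffine.Nonsingular x y)
    (h' : (Wab a b).toAffine.Nonsingular x' y') (hx : x' = x) (hy : y' = y) :
    InE1 v (Point.some x' y' h' - Point.some x y h) := by
  subst hx hy
  rw [sub_self]
  trivial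

/-- **Inertia acts trivially modulo `E₁` on `p`-torsion**, abstract form (facts on `E₁` and on the
component map as hypotheses; no torsion-freeness of `E₁`). -/
theorem sub_inE1 (h2 : v 2 = 1) (ha : v a = 1) (hb : v b < 1) (hb0 : b ≠ 0)
    (σ : K →+* K) (hσv : ∀ x, v (σ x) = v x) (hσr : ∀ x, v x ≤ 1 → v (σ x - x) < 1)
    (hσb : σ b = b) (h₀ : K) (hσh : σ h₀ = h₀)
    {p : ℕ} (hp0 : p ≠ 0) (hbh : v b = v h₀ ^ p)
    (hE1sub : ∀ P Q : (Wab a b).toAffine.Point, InE1 v P → InE1 v Q → InE1 v (P - Q))
    (hbranch : ∀ {x s : K} (h : (Wab a b).toAffine.Nonsingular x (x * s)), v x < 1 → v b < v x →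
      p • Point.some x (x * s) h = 0 → ∃ k : ℤ, v x ^ p = v b ^ (2 * k))
    {x y : K} (h : (Wab a b).toAffine.Nonsingular x y)
    (h' : (Wab a b).toAffine.Nonsingular (σ x) (σ y))
    (ht : p • Point.some x y h = 0) :
    InE1 v (Point.some (σ x) (σ y) h' - Point.some x y h) := by
  have hale : v a ≤ 1 := le_of_eq ha
  have hble : v b ≤ 1 := le_of_lt hb
  rcases lt_trichotomy (v x) 1 with hlt | heq | hgt
  · -- `v x < 1`
    by_cases hx0 : x = 0
    · -- the point `T0`
      subst hx0
      have hy0 : y = 0 := by
        have h1 := ((Wab_nonsingular_iff _ _).1 h).1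
        have : y ^ 2 = 0 := by rw [h1]; ring
        exact pow_eq_zero_iff (by norm_num) |>.mp this
      subst hy0
      exact inE1_sub_of_eq v h h' (map_zero σ) (map_zero σ)
    · have hσx0 : σ x ≠ 0 := by
        intro h0; apply hx0
        have := hσv x
        rw [h0, map_zero] at this
        exact (Valuation.zero_iff v).mp this.symm
      -- `(x, s)`-coordinates
      obtain ⟨s, rfl⟩ : ∃ s, y = x * s := ⟨y / x, by field_simp⟩
      obtain ⟨hP', eP'⟩ := some_congr h' rfl (map_mul σ x s)
      have es := s_sq h hx0
      have es' := s_sq hP' hσx0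
      rw [eP']
      by_cases hfar : v x ≤ v b
      · -- far points: translate by `T0`
        have hxpos : 0 < v x := by rw [Valuation.pos_iff]; exact hx0
        have hbx : 1 ≤ v (b / x) := by
          rw [map_div₀]
          exact (one_le_div₀ hxpos).mpr hfar
        have hbx' : v (b / σ x) = v (b / x) := by
          rw [map_div₀, map_div₀, hσv]
        obtain ⟨hQ, eQ⟩ := add_T0_xs hb0 h hx0
        obtain ⟨hQ', eQ'⟩ := add_T0_xs hb0 hP' hσx0
        have hsub : Point.some _ _ hP' - Point.some _ _ h =
            Point.some _ _ hQ' - Point.some _ _ hQ := by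
          rw [← eQ, ← eQ']; abel
        rw [hsub]
        rcases lt_or_eq_of_le hbx with hgt1 | heq1
        · -- both translates are in `E₁`
          apply hE1sub
          · rw [InE1_some, hbx']; exact hgt1
          · rw [InE1_some]; exact hgt1
        · -- both translates have unit `x`-coordinate: Claim C
          have hbx0 : b / x ≠ 0 := div_ne_zero hb0 hx0
          have hbx0' : b / σ x ≠ 0 := div_ne_zero hb0 hσx0
          have hsle : v s ≤ 1 := by
            apply val_le_one_of_sq
            rw [es]
            exact v.map_add_le (v.map_add_le (le_of_lt hlt) hale) (le_of_eq heq1.symm)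
          apply inE1_of_claimC
          refine ClaimC.claimC (v := v) (Wab a b).toAffine rfl rfl rfl h2 hale hble hQ' hQ
            (by rw [hbx']; exact heq1.symm) heq1.symm ?_ ?_ (Or.inr ?_)
          · have : b / σ x - b / x = σ (b / x) - b / x := by rw [map_div₀, hσb]
            rw [this]
            exact hσr _ (le_of_eq heq1.symm)
          · have e1 : b / σ x * -σ s / (b / σ x) - b / x * -s / (b / x) = -(σ s - s) := by
              field_simp; ring
            rw [e1, Valuation.map_neg]
            exact hσr _ hsle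
          · exact val_sq_sub_eq_one (by rw [hbx']; exact heq1.symm) hb
      · -- on a branch: `v b < v x < 1`
        push Not at hfar
        obtain ⟨k, hk⟩ := hbranch h hlt hfar ht
        -- `v x = v (h₀ ^ (2k))`
        have hh0 : h₀ ≠ 0 := by
          rintro rfl
          rw [map_zero, zero_pow hp0] at hbh
          exact hb0 ((Valuation.zero_iff v).mp hbh)
        obtain ⟨c, hc⟩ : ∃ c : K, c = h₀ ^ (2 * k) := ⟨_, rfl⟩
        have hc0 : c ≠ 0 := by rw [hc]; exact zpow_ne_zero _ hh0
        have hσc : σ c = c := by rw [hc, map_zpow₀, hσh]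
        have hvc : v x = v c := by
          have e1 : v x ^ p = v c ^ p := by
            rw [hk, hbh, hc, map_zpow₀, ← zpow_natCast (v h₀) p, ← zpow_mul, ← zpow_natCast,
              ← zpow_mul, mul_comm]
          exact (pow_left_inj₀ zero_le zero_le hp0).mp e1
        have hdx : v (σ x - x) < v x := val_sub_lt_of_fixed σ hσr hσc hc0 hvc
        -- `s` is a unit
        have hxpos : 0 < v x := by rw [Valuation.pos_iff]; exact hx0
        have hbx : v (b / x) < 1 := by
          rw [map_div₀]
          exact (div_lt_one₀ hxpos).mpr hfar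
        have hs1 : v s = 1 := by
          apply val_eq_one_of_sq
          have e : s ^ 2 = a + (x + b / x) := by rw [es]; ring
          rw [e, v.map_add_eq_of_lt_left (show v (x + b / x) < v a by
            rw [ha]; exact v.map_add_lt hlt hbx), ha]
        have hds : v (σ s - s) < 1 := hσr _ (le_of_eq hs1)
        have hadd : v (σ s + s) = 1 := val_add_eq_one h2 hs1 hds
        by_cases hxx : σ x = x
        · -- same `x`-coordinate: `σ P = P`
          have hsq : σ s ^ 2 = s ^ 2 := by rw [es, es', hxx]
          have hmul : (σ s - s) * (σ s + s) = 0 := by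
            have : (σ s - s) * (σ s + s) = σ s ^ 2 - s ^ 2 := by ring
            rw [this, hsq, sub_self]
          have hss : σ s = s := by
            rcases mul_eq_zero.mp hmul with h3 | h3
            · exact sub_eq_zero.mp h3
            · rw [h3, map_zero] at hadd; exact absurd hadd zero_ne_one
          exact inE1_sub_of_eq v h hP' hxx (by rw [hxx, hss])
        · -- chord formula for `σ P - P`
          obtain ⟨hN, eN⟩ := neg_xs h
          obtain ⟨y₃, h₃, e₃⟩ := add_xs_chord hP' hN hσx0 hx0 hxx
          rw [sub_eq_add_neg, eN, e₃, InE1_some]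
          have hne : σ x - x ≠ 0 := sub_ne_zero.mpr hxx
          have hpos : 0 < v (σ x - x) := by rw [Valuation.pos_iff]; exact hne
          rw [sub_neg_eq_add, map_div₀, map_mul, map_mul, map_pow, map_pow, hadd, hσv, one_pow,
            mul_one, one_lt_div₀ (pow_pos hpos 2), ← pow_two]
          exact pow_lt_pow_left₀ hdx zero_le (by norm_num)
  · -- `v x = 1`: Claim C
    have hx0 : x ≠ 0 := by rintro rfl; simp at heq
    have hσx1 : v (σ x) = 1 := by rw [hσv]; exact heq
    have hsle : v (y / x) ≤ 1 := by
      obtain ⟨hP, eP⟩ := some_eq_xs h hx0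
      have es := s_sq hP hx0
      apply val_le_one_of_sq
      rw [es]
      refine v.map_add_le (v.map_add_le (le_of_eq heq) hale) ?_
      rw [map_div₀, heq, div_one]; exact hble
    apply inE1_of_claimC
    refine ClaimC.claimC (v := v) (Wab a b).toAffine rfl rfl rfl h2 hale hble h' h hσx1 heq
      (hσr _ (le_of_eq heq)) ?_ (Or.inr ?_)
    · rw [← map_div₀]; exact hσr _ hsle
    · exact val_sq_sub_eq_one hσx1 hb
  · -- `1 < v x`: both points are in `E₁`
    apply hE1sub
    · rw [InE1_some, hσv]; exact hgt
    · rw [InE1_some]; exact hgt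

/-- **Inertia acts trivially modulo `E₁` on `p`-torsion**, packaged form: the hypotheses of
`S05.mult_fixed` without `hpv : v p = 1` (so residue characteristic `p` is allowed) and without the
torsion hypothesis on `σ P`. -/
theorem sub_inE1' (h2 : v 2 = 1) (ha : v a = 1) (hb : v b < 1) (hb0 : b ≠ 0) (α : K)
    (hα : α ^ 2 = a)
    (σ : K →+* K) (hσv : ∀ x, v (σ x) = v x) (hσr : ∀ x, v x ≤ 1 → v (σ x - x) < 1)
    (hσb : σ b = b) (h₀ : K) (hσh : σ h₀ = h₀)
    {p : ℕ} (hp : p.Prime) (hbh : v b = v h₀ ^ p)
    {x y : K} (h : (Wab a b).toAffine.Nonsingular x y)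
    (h' : (Wab a b).toAffine.Nonsingular (σ x) (σ y))
    (ht : p • Point.some x y h = 0) :
    InE1 v (Point.some (σ x) (σ y) h' - Point.some x y h) := by
  have hale : v a ≤ 1 := le_of_eq ha
  have hble : v b ≤ 1 := le_of_lt hb
  have hαv : v α = 1 := Mult.val_eq_one_of_sq (by rw [hα]; exact ha)
  refine sub_inE1 v h2 ha hb hb0 σ hσv hσr hσb h₀ hσh hp.ne_zero hbh ?_ ?_ h h' ht
  · intro P Q hP hQ
    rw [sub_eq_add_neg]
    exact KernelContract.inE1_add v hale hble P (-Q) hP (KernelContract.inE1_neg v Q hQ)
  · intro x s hxs hx1 hxb hn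
    exact comp_torsion v h2 hb hb0 α hα hαv hxs hx1 hxb hn

end Fermat.Agent.T1B.ESide48
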