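/-
Programme T1B (row 38 via S44), E-side, brick CONCRETE44 (helper48).

The generic E-side (valued field `(K, v)`, model curve `Wab a b`, `MultRed v a b α`, inertia-like
endomorphisms) instantiated in the B5 local model `K̄ = Kbar p = PadicAlgCl p`, `G_p = Gp p`:

* (i)  `vK p : Valuation (Kbar p) ℝ≥0`, `vK p x = ‖x‖₊`; Galois invariance `vK_gal` (`hσv`), the inertia
  estimate `vK_inertial` (`hσr`), `liesOver_vK : FreyArith.LiesOver (vK p) p`, `vK_natCast_p`,
  `vK_two`, `gal_intCast`, inertia fixes square roots of units (`inertial_sqrt`).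
* (ii) `FreyModel P` : for a Frey package `P` with `P.p ∣ abc`, the translation parameter `t ∈ ℤ` and the
  model `Wab a b` (`a, b ∈ ℤ`, `b = h₀ ^ p` EXACTLY with `h₀ ∈ ℤ`, `p ∣ h₀`), a square root `α` of
  `a`, `MultRed (vK p) a b α`; `exists_freyModel`; consequences `val_b_eq`, `val_h₀_le`,
  `val_b_lt` (`v b < v p ^ 2`), `gal_t/a/b/h₀`, `inertial_α`.
* (iii) `FreyModel.equiv : (P.freyCurve⁄K̄).Point ≃+ (Wab a b).Point` (`S05.FreyTransport.freyEquiv`) is
  `G_p`-equivariant for the coordinatewise action `RedTors.RedHom.mapPt` on the model: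
  `FreyModel.equiv_smul`.
-/
import Mathlib
import Fermat.Agent.TW.B5.Iface
import Fermat.Agent.S05.FreyArith
import Fermat.Agent.S05.FreyTransport
import Fermat.Agent.S05.Mult
import Fermat.Agent.RedTors.RedHom
import Fermat.Agent.T1B.ESide46.ApproxChar

set_option autoImplicit false

open scoped NNReal

namespace Fermat.Agent.T1B.ESide48

open Fermat.Agent.TW.B5.Iface Fermat.Agent.S05 Fermat.Agent.T1B.ESide46
  WeierstrassCurve WeierstrassCurve.Affine

/-! ### (i) The norm valuation of the local model -/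

section Val

variable (p : ℕ) [Fact p.Prime]

/-- The norm valuation on `K̄`. -/
noncomputable def vK : Valuation (Kbar p) ℝ≥0 := Valued.v

theorem vK_apply (x : Kbar p) : vK p x = ‖x‖₊ := rfl

theorem coe_vK (x : Kbar p) : ((vK p x : ℝ≥0) : ℝ) = ‖x‖ := rfl

theorem vK_le_one_iff (x : Kbar p) : vK p x ≤ 1 ↔ ‖x‖ ≤ 1 := by
  rw [← NNReal.coe_le_coe, coe_vK, NNReal.coe_one]

theorem vK_lt_one_iff (x : Kbar p) : vK p x < 1 ↔ ‖x‖ < 1 := by
  rw [← NNReal.coe_lt_coe, coe_vK, NNReal.coe_one]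

theorem vK_eq_one_iff (x : Kbar p) : vK p x = 1 ↔ ‖x‖ = 1 := by
  rw [← NNReal.coe_inj, coe_vK, NNReal.coe_one]

/-- `hσv`: Galois automorphisms are isometries. -/
theorem vK_gal (τ : Gp p) (x : Kbar p) : vK p (τ x) = vK p x :=
  nnnorm_padicAlgCl_algEquiv p τ x

/-- `hσr`: inertial automorphisms act trivially on the residue field. -/
theorem vK_inertial {τ : Gp p} (hτ : IsInertial p τ) (x : Kbar p) (hx : vK p x ≤ 1) :
    vK p (τ x - x) < 1 :=
  (vK_lt_one_iff p _).mpr (hτ x ((vK_le_one_iff p x).mp hx))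

theorem norm_intCast_Kbar (n : ℤ) : ‖(n : Kbar p)‖ = ‖(n : ℚ_[p])‖ := by
  rw [← PadicAlgCl.norm_extends p (n : ℚ_[p])]
  exact congrArg norm (map_intCast (algebraMap ℚ_[p] (PadicAlgCl p)) n).symm

/-- The norm valuation lies over `p`. -/
theorem liesOver_vK : FreyArith.LiesOver (vK p) p where
  le_one n := by
    rw [vK_le_one_iff, norm_intCast_Kbar]
    exact Padic.norm_int_le_one n
  lt_one_iff n := by
    rw [vK_lt_one_iff, norm_intCast_Kbar]
    exact Padic.norm_intCast_lt_one_iff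

theorem vK_natCast_p_lt_one : vK p (p : Kbar p) < 1 := by
  have h := (liesOver_vK p).lt_one_iff (p : ℤ)
  rw [Int.cast_natCast] at h
  exact h.mpr dvd_rfl

theorem vK_natCast_p_pos : 0 < vK p (p : Kbar p) := by
  rw [Valuation.pos_iff]
  exact Nat.cast_ne_zero.mpr (Fact.out : p.Prime).ne_zero

theorem vK_two (hp2 : p ≠ 2) : vK p (2 : Kbar p) = 1 :=
  (liesOver_vK p).two (Fact.out : p.Prime) hp2

/-- Galois automorphisms fix the integers. -/
theorem gal_intCast (τ : Gp p) (n : ℤ) : τ (n : Kbar p) = n := map_intCast τ n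

/-- An inertial automorphism fixes every square root of a fixed element, `p` odd. -/
theorem inertial_sqrt (hp2 : p ≠ 2) {τ : Gp p} (hτ : IsInertial p τ) {α a : Kbar p}
    (hα : α ^ 2 = a) (hαv : vK p α = 1) (hτa : τ a = a) : τ α = α := by
  have h1 : (τ α - α) * (τ α + α) = 0 := by
    have : (τ α - α) * (τ α + α) = τ (α ^ 2) - α ^ 2 := by rw [map_pow]; ring
    rw [this, hα, hτa, sub_self]
  rcases mul_eq_zero.mp h1 with h | h
  · exact sub_eq_zero.mp h
  · exfalso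
    have h2 : τ α - α = -(2 * α) := by linear_combination h
    have h3 := vK_inertial p hτ α (le_of_eq hαv)
    rw [h2, Valuation.map_neg, map_mul, vK_two p hp2, hαv, one_mul] at h3
    exact lt_irrefl _ h3

end Val

/-! ### (ii) The model of the Frey curve at `p ∣ abc` -/

section Frey

open Fermat.Agent.S05.FreyTransport

variable (P : FreyPackage) [Fact P.p.Prime]

/-- **Concrete model data** of the Frey curve at its own prime `p`, when `p ∣ abc`: an integral
translation parameter `tZ`, the integral coefficients `aZ, bZ` of the model `Wab a b`, an integer `h₀`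
divisible by `p` with `bZ = h₀ ^ p` exactly, `aZ` prime to `p`, and a square root `α` of `a` in
`K̄`. -/
structure FreyModel where
  /-- the translation parameter -/
  tZ : ℤ
  /-- the coefficient `a` -/
  aZ : ℤ
  /-- the coefficient `b` -/
  bZ : ℤ
  /-- the `p`-th root of `b` -/
  h₀ : ℤ
  /-- a square root of `a` -/
  α : Kbar P.p
  ht : (tZ : Kbar P.p) * ((tZ : Kbar P.p) - cA P) * ((tZ : Kbar P.p) + cB P) = 0
  ha : (aZ : Kbar P.p) = 3 * (tZ : Kbar P.p) + cB P - cA P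
  hb : (bZ : Kbar P.p) =
    3 * (tZ : Kbar P.p) ^ 2 + 2 * (cB P - cA P) * (tZ : Kbar P.p) - cA P * cB P
  hbh : bZ = h₀ ^ P.p
  hdvd : (P.p : ℤ) ∣ h₀
  h₀_ne : h₀ ≠ 0
  ha_unit : ¬ (P.p : ℤ) ∣ aZ
  hα : α ^ 2 = (aZ : Kbar P.p)

omit [Fact P.p.Prime] in
theorem p_ne_two : P.p ≠ 2 := by
  have := P.hp5
  omega

namespace FreyModel

variable {P} (M : FreyModel P)

/-- the translation parameter in `K̄` -/
noncomputable def t : Kbar P.p := (M.tZ : Kbar P.p)
/-- the coefficient `a` in `K̄` -/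
noncomputable def a : Kbar P.p := (M.aZ : Kbar P.p)
/-- the coefficient `b` in `K̄` -/
noncomputable def b : Kbar P.p := (M.bZ : Kbar P.p)

theorem b_eq : M.b = (M.h₀ : Kbar P.p) ^ P.p := by
  unfold b
  rw [M.hbh, Int.cast_pow]

theorem val_a : vK P.p M.a = 1 := (liesOver_vK P.p).eq_one M.ha_unit

theorem val_h₀_lt_one : vK P.p (M.h₀ : Kbar P.p) < 1 :=
  ((liesOver_vK P.p).lt_one_iff M.h₀).mpr M.hdvd

/-- `ρ₀ = v h₀ ≤ v p`. -/
theorem val_h₀_le : vK P.p (M.h₀ : Kbar P.p) ≤ vK P.p (P.p : Kbar P.p) := by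
  obtain ⟨k, hk⟩ := M.hdvd
  have h1 : (M.h₀ : Kbar P.p) = (P.p : Kbar P.p) * (k : Kbar P.p) := by
    rw [hk]
    push_cast
    rfl
  rw [h1, map_mul]
  calc vK P.p (P.p : Kbar P.p) * vK P.p (k : Kbar P.p)
      ≤ vK P.p (P.p : Kbar P.p) * 1 := by
        gcongr
        exact (liesOver_vK P.p).le_one k
    _ = vK P.p (P.p : Kbar P.p) := mul_one _

theorem val_h₀_pos : 0 < vK P.p (M.h₀ : Kbar P.p) := by
  rw [Valuation.pos_iff]
  exact Int.cast_ne_zero.mpr M.h₀_ne

/-- `v b = ρ₀ ^ p`. -/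
theorem val_b_eq : vK P.p M.b = vK P.p (M.h₀ : Kbar P.p) ^ P.p := by
  rw [M.b_eq, map_pow]

theorem val_b_lt_one : vK P.p M.b < 1 := by
  rw [M.val_b_eq]
  exact pow_lt_one₀ zero_le M.val_h₀_lt_one P.hp0

theorem b_ne_zero : M.b ≠ 0 := by
  rw [M.b_eq]
  exact pow_ne_zero _ (Int.cast_ne_zero.mpr M.h₀_ne)

/-- `v b < v p ^ 2` (indeed `v b ≤ v p ^ p`, `p ≥ 5`). -/
theorem val_b_lt : vK P.p M.b < vK P.p (P.p : Kbar P.p) ^ 2 := by
  have hp0 := vK_natCast_p_pos P.p
  have hp1 := vK_natCast_p_lt_one P.p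
  rw [M.val_b_eq]
  calc vK P.p (M.h₀ : Kbar P.p) ^ P.p
      ≤ vK P.p (P.p : Kbar P.p) ^ P.p := pow_le_pow_left₀ zero_le M.val_h₀_le _
    _ < vK P.p (P.p : Kbar P.p) ^ 2 :=
        pow_lt_pow_right_of_lt_one₀ hp0 hp1 (by have := P.hp5; omega)

theorem val_α : vK P.p M.α = 1 :=
  Mult.val_eq_one_of_sq (v := vK P.p) (by rw [M.hα]; exact M.val_a)

/-- The model has multiplicative reduction in the sense of `ESide46.MultRed`. -/
theorem multRed : MultRed (vK P.p) M.a M.b M.α where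
  h2 := vK_two P.p (p_ne_two P)
  hα := M.hα
  hαv := M.val_α
  hb := M.val_b_lt_one
  hb0 := M.b_ne_zero

theorem gal_t (τ : Gp P.p) : τ M.t = M.t := gal_intCast P.p τ _
theorem gal_a (τ : Gp P.p) : τ M.a = M.a := gal_intCast P.p τ _
theorem gal_b (τ : Gp P.p) : τ M.b = M.b := gal_intCast P.p τ _
theorem gal_h₀ (τ : Gp P.p) : τ (M.h₀ : Kbar P.p) = M.h₀ := gal_intCast P.p τ _

/-- Inertia fixes `α`. -/
theorem inertial_α {τ : Gp P.p} (hτ : IsInertial P.p τ) : τ M.α = M.α :=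
  inertial_sqrt P.p (p_ne_two P) hτ M.hα M.val_α (M.gal_a τ)

end FreyModel

/-- **Existence of the concrete model** at `p ∣ abc`: `t = 0`, `(a, b) = (B - A, (-ab)^p)` if
`p ∣ ab`; `t = A`, `(a, b) = (A + C, (ac)^p)` if `p ∣ c`. -/
theorem exists_freyModel (hdiv : (P.p : ℤ) ∣ P.a * P.b * P.c) : Nonempty (FreyModel P) := by
  have hq : P.p.Prime := P.pp
  have hcA : (cA P : Kbar P.p) = (P.a : Kbar P.p) ^ P.p := rfl
  have hcB : (cB P : Kbar P.p) = (P.b : Kbar P.p) ^ P.p := rfl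
  rcases (FreyArith.prime_int hq).dvd_or_dvd hdiv with hab | hc
  · -- `p ∣ ab`
    obtain ⟨α, hα⟩ := IsAlgClosed.exists_pow_nat_eq
      (((P.b ^ P.p - P.a ^ P.p : ℤ) : Kbar P.p)) (n := 2) (by norm_num)
    refine ⟨{ tZ := 0, aZ := P.b ^ P.p - P.a ^ P.p, bZ := -(P.a ^ P.p * P.b ^ P.p),
              h₀ := -(P.a * P.b), α := α, ht := ?_, ha := ?_, hb := ?_, hbh := ?_, hdvd := ?_,
              h₀_ne := ?_, ha_unit := FreyArith.ab_a P hq hab, hα := hα }⟩
    · push_cast; ring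
    · rw [hcA, hcB]; push_cast; ring
    · rw [hcA, hcB]; push_cast; ring
    · rw [P.hp_odd.neg_pow, mul_pow]
    · exact (dvd_neg).mpr hab
    · exact neg_ne_zero.mpr (mul_ne_zero P.ha0 P.hb0)
  · -- `p ∣ c`
    have hcc : (P.c : Kbar P.p) ^ P.p = (P.a : Kbar P.p) ^ P.p + (P.b : Kbar P.p) ^ P.p :=
      FreyArith.c_pow_eq_cast P
    obtain ⟨α, hα⟩ := IsAlgClosed.exists_pow_nat_eq
      (((P.a ^ P.p + P.c ^ P.p : ℤ) : Kbar P.p)) (n := 2) (by norm_num)
    refine ⟨{ tZ := P.a ^ P.p, aZ := P.a ^ P.p + P.c ^ P.p, bZ := P.a ^ P.p * P.c ^ P.p,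
              h₀ := P.a * P.c, α := α, ht := ?_, ha := ?_, hb := ?_, hbh := ?_, hdvd := ?_,
              h₀_ne := ?_, ha_unit := FreyArith.c_a P hq hc, hα := hα }⟩
    · rw [hcA]; push_cast; ring
    · rw [hcA, hcB]; push_cast; rw [hcc]; ring
    · rw [hcA, hcB]; push_cast; rw [hcc]; ring
    · rw [mul_pow]
    · exact dvd_mul_of_dvd_right hc _
    · exact mul_ne_zero P.ha0 P.hc0

/-! ### (iii) The equivariant transport -/

section Transport

open Fermat.Agent.RedTors.RedHom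


variable {P} (M : FreyModel P) [DecidableEq (Kbar P.p)]

omit [DecidableEq (Kbar P.p)] in
/-- Galois automorphisms fix the model curve. -/
theorem FreyModel.map_eq (τ : Gp P.p) :
    (Wab M.a M.b).toAffine.map (τ : Kbar P.p →+* Kbar P.p) = (Wab M.a M.b).toAffine := by
  ext <;> simp [Wab, WeierstrassCurve.map, M.gal_a τ, M.gal_b τ]

/-- The transport of the points of the Frey curve over `K̄` to the points of the model. -/
noncomputable def FreyModel.equiv :
    (P.freyCurve⁄(Kbar P.p)).Point ≃+ (Wab M.a M.b).toAffine.Point :=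
  freyEquiv P M.ht M.ha M.hb

theorem FreyModel.equiv_some {x y : Kbar P.p} (h : (P.freyCurve⁄(Kbar P.p)).Nonsingular x y) :
    ∃ h' : (Wab M.a M.b).toAffine.Nonsingular (4 * x - M.t) (8 * y + 4 * x),
      M.equiv (.some x y h) = .some _ _ h' :=
  freyEquiv_some P M.ht M.ha M.hb h

/-- **Equivariance of the transport**: the Galois action on the points of the Frey curve corresponds
to the coordinatewise action on the model. -/
theorem FreyModel.equiv_smul (τ : Gp P.p) (x : (P.freyCurve⁄(Kbar P.p)).Point) :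
    M.equiv (τ • x) = mapPt (τ : Kbar P.p →+* Kbar P.p) (M.map_eq τ) (M.equiv x) := by
  rcases x with _ | ⟨x₀, y₀, h₀⟩
  · change M.equiv 0 = mapPt _ _ (M.equiv 0)
    rw [map_zero]
    rfl
  · have h₀' : (P.freyCurve⁄(Kbar P.p)).Nonsingular (τ x₀) (τ y₀) :=
      (Affine.baseChange_nonsingular (W := P.freyCurve) (f := τ.toAlgHom)
        τ.toAlgHom.injective x₀ y₀).mpr h₀
    have hs : τ • (Point.some x₀ y₀ h₀ : (P.freyCurve⁄(Kbar P.p)).Point) =
        Point.some (τ x₀) (τ y₀) h₀' := rfl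
    obtain ⟨h1, e1⟩ := M.equiv_some h₀
    obtain ⟨h2, e2⟩ := M.equiv_some h₀'
    obtain ⟨h3, e3⟩ := mapPt_some (τ : Kbar P.p →+* Kbar P.p) (M.map_eq τ) h1
    rw [hs, e2, e1, e3]
    have hX : 4 * τ x₀ - M.t = τ (4 * x₀ - M.t) := by
      rw [map_sub, map_mul, M.gal_t τ, map_ofNat]
    have hY : 8 * τ y₀ + 4 * τ x₀ = τ (8 * y₀ + 4 * x₀) := by
      rw [map_add, map_mul, map_mul, map_ofNat, map_ofNat]
    simp only [Point.some.injEq, RingHom.coe_coe]
    exact ⟨hX, hY⟩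

end Transport

end Frey

end Fermat.Agent.T1B.ESide48
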