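/-
Programme T1B (row 38 via S44), E-side, brick CONCRETE44 part 2 (helper48): NORMS IN `p^ℤ`.

The (PEU) step `H1U45.exists_oneUnit_of_muP_cocycle` / `Plumb66.OneUnits.exists_oneUnit_of_cocycle`
needs the norm of the resolvent in `p^ℤ`.  On the concrete model `v R = v p * ρ₀ ^ 2` with
`ρ₀ = v h₀`, `h₀ ∈ ℤ`, so:

* `norm_natCast_p`          : `‖(p : K̄)‖ = p⁻¹`;
* `exists_norm_intCast_eq`  : `n ≠ 0` ⟹ `∃ k : ℤ, ‖(n : K̄)‖ = p ^ k`;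
* `FreyModel.exists_norm_h₀`;
* `FreyModel.exists_norm_eq_of_vK_eq` : `vK R = vK h₀ ^ i * vK p ^ j` ⟹ `∃ k : ℤ, ‖R‖ = p ^ k`.
-/
import Fermat.Agent.T1B.ESide48.Concrete

set_option autoImplicit false

open scoped NNReal

namespace Fermat.Agent.T1B.ESide48

open Fermat.Agent.TW.B5.Iface

section

variable (p : ℕ) [Fact p.Prime]

theorem norm_natCast_p : ‖(p : Kbar p)‖ = (p : ℝ)⁻¹ := by
  have h := norm_intCast_Kbar p (p : ℤ)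
  rw [Int.cast_natCast, Int.cast_natCast] at h
  rw [h]
  exact Padic.norm_p

theorem exists_norm_intCast_eq {n : ℤ} (hn : n ≠ 0) : ∃ k : ℤ, ‖(n : Kbar p)‖ = (p : ℝ) ^ k := by
  refine ⟨-((n : ℚ_[p])).valuation, ?_⟩
  rw [norm_intCast_Kbar]
  exact Padic.norm_eq_zpow_neg_valuation (Int.cast_ne_zero.mpr hn)

theorem exists_norm_eq_of_vK_eq {R h : Kbar p} {k₀ : ℤ} (hh : ‖h‖ = (p : ℝ) ^ k₀) (i j : ℕ)
    (hR : vK p R = vK p h ^ i * vK p (p : Kbar p) ^ j) : ∃ k : ℤ, ‖R‖ = (p : ℝ) ^ k := by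
  have h1 : ‖R‖ = ‖h‖ ^ i * ‖(p : Kbar p)‖ ^ j := by
    have := congrArg (fun x : ℝ≥0 => (x : ℝ)) hR
    simpa [coe_vK] using this
  refine ⟨k₀ * i + -(j : ℤ), ?_⟩
  have hp0 : (p : ℝ) ≠ 0 := Nat.cast_ne_zero.mpr (Fact.out : p.Prime).ne_zero
  rw [h1, hh, norm_natCast_p, zpow_add₀ hp0, zpow_mul, zpow_natCast, zpow_neg, zpow_natCast,
    inv_pow]

end

namespace FreyModel

variable {P : FreyPackage} [Fact P.p.Prime] (M : FreyModel P)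

theorem exists_norm_h₀ : ∃ k : ℤ, ‖(M.h₀ : Kbar P.p)‖ = (P.p : ℝ) ^ k :=
  exists_norm_intCast_eq P.p M.h₀_ne

/-- If `v R = ρ₀ ^ i * v p ^ j` then `‖R‖ ∈ p^ℤ`. -/
theorem exists_norm_eq_of_vK_eq {R : Kbar P.p} (i j : ℕ)
    (hR : vK P.p R = vK P.p (M.h₀ : Kbar P.p) ^ i * vK P.p (P.p : Kbar P.p) ^ j) :
    ∃ k : ℤ, ‖R‖ = (P.p : ℝ) ^ k := by
  obtain ⟨k₀, hk₀⟩ := M.exists_norm_h₀
  exact ESide48.exists_norm_eq_of_vK_eq P.p hk₀ i j hR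

end FreyModel

end Fermat.Agent.T1B.ESide48
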