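/-
Programme T1B (row 38 via S44), E-side, FINAL WRAPPER (helper48): (PEU) FOR THE FREY CURVE.

For a Frey package `P` with `p ∣ abc` (`p = P.p`), over `K̄ = Kbar p` with `G_p = Gp p`:
there are a basis `(Q, P₀)` of `E[p](K̄)`, a primitive `p`-th root of unity `ζ`, a one-unit `w` and a
function `c : G_p → ℕ` such that every INERTIAL `τ` acts by
  `τ • P₀ = χ(τ) • P₀`,   `τ • Q = Q + c τ • P₀`,   `τ • w = w * ζ ^ c τ`,
`χ = Cyclo.chiNat` the mod `p` cyclotomic character.  This is exactly the `E`-side input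
`(ζ, P₀, Q, w, c)` of `KL46.Abstract.exists_toric_correction` (with `I := Ip p`, `U := oneUnits p`,
`V_E := E(K̄)`).

Assembly of: `Concrete.lean` (model `Wab a b`, `b = h₀ ^ p`), helper46's `CBasis.exists_basis`,
helper63's `PeuWab.peu_wab` (resolvent `R`, `v R = ρ₀ ^ 2 * v p`), helper66's
`OneUnits.exists_oneUnit_of_cocycle` (H1U45: Hilbert 90 on one-units).
-/
import Fermat.Agent.T1B.ESide48.ConcreteNorm
import Fermat.Agent.T1B.ESide46.CBasis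
import Fermat.Agent.T1B.ELocM63.PeuWab
import Fermat.Agent.T1B.ELocM63.Indep
import Fermat.Agent.T1B.Plumb66.OneUnits

set_option autoImplicit false

open scoped NNReal

namespace Fermat.Agent.T1B.ESide48

open Fermat.Agent.TW.B5.Iface Fermat.Agent.S05 Fermat.Agent.T1B.ESide46
  Fermat.Agent.T1B.ELocM63.Galois Fermat.Agent.T1B.ELocM63.PeuWab Fermat.Agent.T1B.Plumb66
  WeierstrassCurve WeierstrassCurve.Affine

/-- multiples of a `p`-torsion element only depend on the exponent mod `p`. -/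
theorem nsmul_eq_of_modEq {G : Type*} [AddCommGroup G] {x : G} {p m n : ℕ} (hx : p • x = 0)
    (h : m ≡ n [MOD p]) : m • x = n • x := by
  have key : ∀ k : ℕ, k • x = (k % p) • x := by
    intro k
    conv_lhs => rw [← Nat.mod_add_div k p, add_smul, mul_comm, mul_smul, hx, smul_zero, add_zero]
  rw [key m, key n, h]

section

variable {P : FreyPackage} [Fact P.p.Prime] (M : FreyModel P)

/-- Inertial automorphisms are inertia-like for the model curve. -/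
theorem FreyModel.isInert {τ : Gp P.p} (hτ : IsInertial P.p τ) :
    IsInert (vK P.p) M.a M.b (τ : Kbar P.p →+* Kbar P.p) where
  val x := vK_gal P.p τ x
  res x hx := vK_inertial P.p hτ x hx
  map_a := M.gal_a τ
  map_b := M.gal_b τ

/-- `v b ≤ (ρ₀ ^ 2) ^ 2 * v p` (`p ≥ 5`, `ρ₀ ≤ v p`). -/
theorem FreyModel.val_b_le :
    vK P.p M.b ≤ (vK P.p (M.h₀ : Kbar P.p) ^ 2) ^ 2 * vK P.p (P.p : Kbar P.p) := by
  have h5 : 5 ≤ P.p := P.hp5
  have h1 : vK P.p (M.h₀ : Kbar P.p) ≤ 1 := M.val_h₀_lt_one.le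
  rw [M.val_b_eq]
  calc vK P.p (M.h₀ : Kbar P.p) ^ P.p
      ≤ vK P.p (M.h₀ : Kbar P.p) ^ 5 := pow_le_pow_of_le_one zero_le h1 h5
    _ = (vK P.p (M.h₀ : Kbar P.p) ^ 2) ^ 2 * vK P.p (M.h₀ : Kbar P.p) := by ring
    _ ≤ (vK P.p (M.h₀ : Kbar P.p) ^ 2) ^ 2 * vK P.p (P.p : Kbar P.p) := by
        gcongr
        exact M.val_h₀_le

variable [DecidableEq (Kbar P.p)]

/-- The transport intertwines the Galois action with `actW`. -/
theorem FreyModel.equiv_smul_actW {τ : Gp P.p} (hτ : IsInertial P.p τ)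
    (x : (P.freyCurve⁄(Kbar P.p)).Point) :
    M.equiv (τ • x) = actW (M.isInert hτ) (M.equiv x) :=
  M.equiv_smul τ x

/-- Pull back a relation on the model to the Frey curve. -/
theorem FreyModel.smul_symm {τ : Gp P.p} (hτ : IsInertial P.p τ)
    (y : (Wab M.a M.b).toAffine.Point) :
    τ • M.equiv.symm y = M.equiv.symm (actW (M.isInert hτ) y) := by
  apply M.equiv.injective
  rw [M.equiv_smul_actW hτ, AddEquiv.apply_symm_apply, AddEquiv.apply_symm_apply]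

end

/-- **(PEU) for the Frey curve at `p ∣ abc`**, full form (with the independence of `Q` and `P₀`
modulo `p`, hypothesis `hindep` of `Local46/Chain.exists_delta_ne_zero`). -/
theorem peu_frey_full (P : FreyPackage) [Fact P.p.Prime] [DecidableEq (Kbar P.p)]
    (hdiv : (P.p : ℤ) ∣ P.a * P.b * P.c) :
    ∃ (P₀ Q : (P.freyCurve⁄(Kbar P.p)).Point) (ζ : Kbar P.p) (hζ : ζ ^ P.p = 1)
      (w : OneUnits.oneUnits P.p) (c : Gp P.p → ℕ),
      IsPrimitiveRoot ζ P.p ∧ P₀ ≠ 0 ∧ P.p • P₀ = 0 ∧ P.p • Q = 0 ∧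
      (∀ T : (P.freyCurve⁄(Kbar P.p)).Point, P.p • T = 0 →
        ∃ i j : ℕ, i < P.p ∧ j < P.p ∧ T = i • Q + j • P₀) ∧
      (∀ n : ℤ, n • Q ∈ AddSubgroup.zmultiples P₀ → (P.p : ℤ) ∣ n) ∧
      ∀ τ : Gp P.p, IsInertial P.p τ →
        τ • P₀ = Cyclo.chiNat P.p τ • P₀ ∧ τ • Q = Q + c τ • P₀ ∧
          τ • w = w * OneUnits.muP P.p ζ hζ ^ c τ := by
  obtain ⟨M⟩ := exists_freyModel P hdiv
  have H := M.multRed
  have hp0 := vK_natCast_p_pos P.p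
  have hp1 := vK_natCast_p_lt_one P.p
  have hbp := M.val_b_lt
  obtain ⟨ζ₀, hζ₀⟩ := Cyclo.exists_primitiveRoot P.p
  obtain ⟨P₀, Q, hP₀0, hpP₀, hP₀E, hpQ, hQα, hgen, hspan⟩ :=
    exists_basis (v := vK P.p) H hζ₀ hp0 hp1 hbp M.val_b_eq
  have B : Basis (vK P.p) M.a M.b M.α P.p (vK P.p (M.h₀ : Kbar P.p) ^ 2) P₀ Q :=
    ⟨hP₀0, hpP₀, hP₀E, hpQ, hQα, hgen, hspan⟩
  obtain ⟨ζ, R, hζprim, hvR, hact⟩ := peu_wab H hp0 hp1 hbp hζ₀ M.val_b_le M.val_b_eq B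
  have hζp : ζ ^ P.p = 1 := hζprim.pow_eq_one
  -- the cocycle `c`
  have hex : ∀ τ : Gp P.p, ∃ c : ℕ, ∀ hτ : IsInertial P.p τ, ∃ χ : ℕ,
      τ ζ = ζ ^ χ ∧ actW (M.isInert hτ) P₀ = χ • P₀ ∧ actW (M.isInert hτ) Q = Q + c • P₀ ∧
        τ R = ζ ^ c * R := by
    intro τ
    by_cases hτ : IsInertial P.p τ
    · obtain ⟨χ, c, -, -, -, h1, h2, h3, h4⟩ := hact _ (M.isInert hτ) (M.gal_h₀ τ)
      exact ⟨c, fun _ => ⟨χ, h1, h2, h3, h4⟩⟩
    · exact ⟨0, fun h => absurd h hτ⟩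
  choose c hc using hex
  -- the one-unit
  obtain ⟨k, hk⟩ := M.exists_norm_eq_of_vK_eq (R := R) 2 1 (by rw [hvR, pow_one])
  obtain ⟨w, hw⟩ := OneUnits.exists_oneUnit_of_cocycle P.p hζp hk c (fun τ hτ => by
    obtain ⟨χ, -, -, -, h4⟩ := hc τ hτ
    exact h4)
  refine ⟨M.equiv.symm P₀, M.equiv.symm Q, ζ, hζp, w, c, hζprim, ?_, ?_, ?_, ?_, ?_, ?_⟩
  · exact (AddEquiv.map_ne_zero_iff _).mpr hP₀0
  · rw [← map_nsmul, hpP₀, map_zero]
  · rw [← map_nsmul, hpQ, map_zero]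
  · intro T hT
    have hT' : P.p • M.equiv T = 0 := by rw [← map_nsmul, hT, map_zero]
    obtain ⟨i, j, hi, hj, hij⟩ := hspan _ hT'
    refine ⟨i, j, hi, hj, ?_⟩
    apply M.equiv.injective
    rw [hij, map_add, map_nsmul, map_nsmul, AddEquiv.apply_symm_apply, AddEquiv.apply_symm_apply]
  · refine ELocM63.Indep.indep_of_equiv M.equiv ?_
    rw [AddEquiv.apply_symm_apply, AddEquiv.apply_symm_apply]
    exact B.indep H
  · intro τ hτ
    obtain ⟨χ, h1, h2, h3, -⟩ := hc τ hτ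
    refine ⟨?_, ?_, hw τ hτ⟩
    · rw [M.smul_symm hτ, h2, map_nsmul]
      -- `χ ≡ chiNat τ mod p`
      have h : ζ ^ χ = ζ ^ Cyclo.chiNat P.p τ := h1.symm.trans (Cyclo.actsOnMuP P.p τ ζ hζp)
      have hfin : IsOfFinOrder ζ := by
        rw [← orderOf_pos_iff, ← hζprim.eq_orderOf]
        exact (Fact.out : P.p.Prime).pos
      have hmod := hfin.pow_eq_pow_iff_modEq.1 h
      rw [← hζprim.eq_orderOf] at hmod
      exact nsmul_eq_of_modEq (by rw [← map_nsmul, hpP₀, map_zero]) hmod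
    · rw [M.smul_symm hτ, h3, map_add, map_nsmul]

/-- **(PEU) for the Frey curve at `p ∣ abc`.** -/
theorem peu_frey (P : FreyPackage) [Fact P.p.Prime] [DecidableEq (Kbar P.p)]
    (hdiv : (P.p : ℤ) ∣ P.a * P.b * P.c) :
    ∃ (P₀ Q : (P.freyCurve⁄(Kbar P.p)).Point) (ζ : Kbar P.p) (hζ : ζ ^ P.p = 1)
      (w : OneUnits.oneUnits P.p) (c : Gp P.p → ℕ),
      IsPrimitiveRoot ζ P.p ∧ P₀ ≠ 0 ∧ P.p • P₀ = 0 ∧ P.p • Q = 0 ∧
      (∀ T : (P.freyCurve⁄(Kbar P.p)).Point, P.p • T = 0 →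
        ∃ i j : ℕ, i < P.p ∧ j < P.p ∧ T = i • Q + j • P₀) ∧
      ∀ τ : Gp P.p, IsInertial P.p τ →
        τ • P₀ = Cyclo.chiNat P.p τ • P₀ ∧ τ • Q = Q + c τ • P₀ ∧
          τ • w = w * OneUnits.muP P.p ζ hζ ^ c τ := by
  obtain ⟨P₀, Q, ζ, hζ, w, c, h1, h2, h3, h4, h5, -, h7⟩ := peu_frey_full P hdiv
  exact ⟨P₀, Q, ζ, hζ, w, c, h1, h2, h3, h4, h5, h7⟩

end Fermat.Agent.T1B.ESide48
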