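/-
Programme T1B (row 38 via S44), E-side, GLOBAL FORM of (PEU) (helper48).

`peu_frey` (over `K̄ = ℚ̄_p`) transported to `E[p](ℚ̄) = FreyTors P` (the object of
`GaloisRepIsIrreducible` and of `Top68.HasEmbedding`) along helper66's
`Plumb66.Points.torsEquiv : E[p](ℚ̄) ≃+ E[p](ℚ̄_p)`, `res = localGaloisToGlobal p : G_p → G_ℚ`:

there are a basis `(Q, P₀)` of `E[p](ℚ̄)`, a primitive `p`-th root of unity `ζ ∈ ℚ̄_p`, a one-unit `w`
and `c : G_p → ℕ` such that for every INERTIAL `τ ∈ G_p`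
  `res τ • P₀ = χ(τ) • P₀`,   `res τ • Q = Q + c τ • P₀`,   `τ • w = w * ζ ^ c τ`.
-/
import Fermat.Agent.T1B.ESide48.PeuFrey
import Fermat.Agent.T1B.Plumb66.Points

set_option autoImplicit false

namespace Fermat.Agent.T1B.ESide48

open Fermat.Agent.TW.B5.Iface Fermat.Agent.T1B.Plumb66
  WeierstrassCurve WeierstrassCurve.Affine

/-- The discriminant of the Frey curve. -/
theorem freyCurve_disc_eq (P : FreyPackage) :
    P.freyCurve.Δ = ((P.a : ℚ) ^ P.p * (P.b : ℚ) ^ P.p * (P.c : ℚ) ^ P.p) ^ 2 / 256 := by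
  have hc : (P.c : ℚ) ^ P.p = (P.a : ℚ) ^ P.p + (P.b : ℚ) ^ P.p := by
    have := P.hFLT
    exact_mod_cast this.symm
  rw [hc]
  simp only [WeierstrassCurve.Δ, WeierstrassCurve.b₂, WeierstrassCurve.b₄, WeierstrassCurve.b₆,
    WeierstrassCurve.b₈, FreyPackage.freyCurve]
  ring

theorem freyCurve_disc_ne_zero (P : FreyPackage) : P.freyCurve.Δ ≠ 0 := by
  rw [freyCurve_disc_eq]
  have ha : (P.a : ℚ) ≠ 0 := by exact_mod_cast P.ha0
  have hb : (P.b : ℚ) ≠ 0 := by exact_mod_cast P.hb0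
  have hc : (P.c : ℚ) ≠ 0 := by exact_mod_cast P.hc0
  positivity

/-- **(PEU) for the Frey curve at `p ∣ abc`, on `E[p](ℚ̄)`**, full form (with the independence of
`Q` and `P₀` modulo `p`). -/
theorem peu_frey_global_full (P : FreyPackage) [Fact P.p.Prime] [DecidableEq (Kbar P.p)]
    (hdiv : (P.p : ℤ) ∣ P.a * P.b * P.c) :
    ∃ (P₀ Q : Submodule.torsionBy ℤ (P.freyCurve⁄(AlgebraicClosure ℚ)).Point P.p)
      (ζ : Kbar P.p) (hζ : ζ ^ P.p = 1) (w : OneUnits.oneUnits P.p) (c : Gp P.p → ℕ),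
      IsPrimitiveRoot ζ P.p ∧ P₀ ≠ 0 ∧
      (∀ T : Submodule.torsionBy ℤ (P.freyCurve⁄(AlgebraicClosure ℚ)).Point P.p,
        ∃ i j : ℕ, i < P.p ∧ j < P.p ∧ T = i • Q + j • P₀) ∧
      (∀ n : ℤ, n • Q ∈ AddSubgroup.zmultiples P₀ → (P.p : ℤ) ∣ n) ∧
      ∀ τ : Gp P.p, IsInertial P.p τ →
        localGaloisToGlobal P.p τ • P₀ = Cyclo.chiNat P.p τ • P₀ ∧
          localGaloisToGlobal P.p τ • Q = Q + c τ • P₀ ∧
          τ • w = w * OneUnits.muP P.p ζ hζ ^ c τ := by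
  obtain ⟨P₀, Q, ζ, hζ, w, c, hprim, hP₀0, hpP₀, hpQ, hspan, hindep, hact⟩ := peu_frey_full P hdiv
  have hodd : Odd P.p := P.hp_odd
  set e := Points.torsEquiv P.p P.freyCurve (freyCurve_disc_ne_zero P) hodd with he
  have mem : ∀ {T : (P.freyCurve⁄(Kbar P.p)).Point}, P.p • T = 0 →
      T ∈ Submodule.torsionBy ℤ (P.freyCurve⁄(Kbar P.p)).Point P.p := by
    intro T hT
    rw [Submodule.mem_torsionBy_iff, natCast_zsmul]
    exact hT
  -- the local points as elements of `E[p](ℚ̄_p)`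
  set P₀' : Submodule.torsionBy ℤ (P.freyCurve⁄(Kbar P.p)).Point P.p := ⟨P₀, mem hpP₀⟩ with hP₀'
  set Q' : Submodule.torsionBy ℤ (P.freyCurve⁄(Kbar P.p)).Point P.p := ⟨Q, mem hpQ⟩ with hQ'
  refine ⟨e.symm P₀', e.symm Q', ζ, hζ, w, c, hprim, ?_, ?_, ?_, ?_⟩
  · rw [Ne, AddEquiv.map_eq_zero_iff]
    intro h0
    exact hP₀0 (congrArg Subtype.val h0)
  · intro T
    have hT : P.p • ((e T : Submodule.torsionBy ℤ (P.freyCurve⁄(Kbar P.p)).Point P.p) :
        (P.freyCurve⁄(Kbar P.p)).Point) = 0 := by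
      have := (e T).2
      rw [Submodule.mem_torsionBy_iff, natCast_zsmul] at this
      exact this
    obtain ⟨i, j, hi, hj, hij⟩ := hspan _ hT
    refine ⟨i, j, hi, hj, ?_⟩
    apply e.injective
    rw [map_add, map_nsmul, map_nsmul, AddEquiv.apply_symm_apply, AddEquiv.apply_symm_apply]
    apply Subtype.ext
    rw [hij]
    rfl
  · refine ELocM63.Indep.indep_of_equiv e ?_
    rw [AddEquiv.apply_symm_apply, AddEquiv.apply_symm_apply]
    intro n hn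
    apply hindep n
    obtain ⟨k, hk⟩ := AddSubgroup.mem_zmultiples_iff.mp hn
    rw [AddSubgroup.mem_zmultiples_iff]
    exact ⟨k, congrArg Subtype.val hk⟩
  · intro τ hτ
    obtain ⟨h1, h2, h3⟩ := hact τ hτ
    refine ⟨?_, ?_, h3⟩
    · apply e.injective
      rw [he, Points.torsEquiv_res, ← he, map_nsmul, AddEquiv.apply_symm_apply]
      apply Subtype.ext
      exact h1
    · apply e.injective
      rw [he, Points.torsEquiv_res, ← he, map_add, map_nsmul, AddEquiv.apply_symm_apply,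
        AddEquiv.apply_symm_apply]
      apply Subtype.ext
      exact h2

/-- **(PEU) for the Frey curve at `p ∣ abc`, on `E[p](ℚ̄)`.** -/
theorem peu_frey_global (P : FreyPackage) [Fact P.p.Prime] [DecidableEq (Kbar P.p)]
    (hdiv : (P.p : ℤ) ∣ P.a * P.b * P.c) :
    ∃ (P₀ Q : Submodule.torsionBy ℤ (P.freyCurve⁄(AlgebraicClosure ℚ)).Point P.p)
      (ζ : Kbar P.p) (hζ : ζ ^ P.p = 1) (w : OneUnits.oneUnits P.p) (c : Gp P.p → ℕ),
      IsPrimitiveRoot ζ P.p ∧ P₀ ≠ 0 ∧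
      (∀ T : Submodule.torsionBy ℤ (P.freyCurve⁄(AlgebraicClosure ℚ)).Point P.p,
        ∃ i j : ℕ, i < P.p ∧ j < P.p ∧ T = i • Q + j • P₀) ∧
      ∀ τ : Gp P.p, IsInertial P.p τ →
        localGaloisToGlobal P.p τ • P₀ = Cyclo.chiNat P.p τ • P₀ ∧
          localGaloisToGlobal P.p τ • Q = Q + c τ • P₀ ∧
          τ • w = w * OneUnits.muP P.p ζ hζ ^ c τ := by
  obtain ⟨P₀, Q, ζ, hζ, w, c, h1, h2, h3, -, h5⟩ := peu_frey_global_full P hdiv
  exact ⟨P₀, Q, ζ, hζ, w, c, h1, h2, h3, h5⟩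

end Fermat.Agent.T1B.ESide48
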